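import Fermat.Agent.S19.B.Eval
import Fermat.Agent.GAL.OpenStab

/-!
# S17 / WMW / Cont  (WP [W-CONT]): every point of `Pic⁰` of `ℚ̄ ⊗ F₀` is defined over a number field

For a place `P` choose `f₁` with a simple zero at `P` and `f₂` with a simple zero at `P` and no zero
at the other zeros of `f₁`.  An automorphism fixing `f₁` and `f₂` fixes `P`.
-/

set_option autoImplicit false

open ModularCurve AlgebraicCurve

namespace Fermat.Agent.S17.WMW

local notation "Qb" => AlgebraicClosure ℚ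
local notation "GQ" => (AlgebraicClosure ℚ ≃ₐ[ℚ] AlgebraicClosure ℚ)

section abstractPlace

variable {K F : Type*} [Field K] [Field F] [Algebra K F] [IsAlgClosed K] [CharZero K]
  [S27.IsFF K F]

/-- a place is cut out by two functions. -/
theorem exists_pair_cutting' (P : Place K F) :
    ∃ f₁ f₂ : F, P.ord f₁ = 1 ∧ P.ord f₂ = 1 ∧
      ∀ Q : Place K F, Q.ord f₁ = 1 → Q.ord f₂ = 1 → Q = P := by
  classical
  obtain ⟨f₁, -, h₁⟩ := S19.exists_ord_eq ({P} : Finset (Place K F)) (fun _ => 1)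
  have hP₁ : P.ord f₁ = 1 := h₁ P (Finset.mem_singleton_self P)
  obtain ⟨f₂, -, h₂⟩ := S19.exists_ord_eq (S27.divOf (K := K) f₁).support
    (fun v => if v = P then 1 else 0)
  have hmemP : P ∈ (S27.divOf (K := K) f₁).support := by
    rw [Finsupp.mem_support_iff, S27.divOf_apply, hP₁]
    exact one_ne_zero
  refine ⟨f₁, f₂, hP₁, by simpa using h₂ P hmemP, fun Q hQ₁ hQ₂ => ?_⟩
  by_contra hne
  have hmem : Q ∈ (S27.divOf (K := K) f₁).support := by
    rw [Finsupp.mem_support_iff, S27.divOf_apply, hQ₁]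
    exact one_ne_zero
  have := h₂ Q hmem
  rw [if_neg hne, hQ₂] at this
  exact one_ne_zero this

omit [IsAlgClosed K] [CharZero K] [S27.IsFF K F] in
/-- a semilinear automorphism fixing the support of a divisor pointwise fixes the divisor. -/
theorem smul_divisor_eq_of_fixes (g : SemilinearAut K F) (D : Divisor K F)
    (h : ∀ P ∈ D.support, g • P = P) : g • D = D := by
  ext w
  rw [SemilinearAut.divisor_smul_apply]
  by_cases hw : w ∈ D.support
  · have h1 : g⁻¹ • w = w := by rw [inv_smul_eq_iff, h w hw]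
    rw [h1]
  · by_cases hw' : g⁻¹ • w ∈ D.support
    · have h1 := h _ hw'
      rw [smul_inv_smul] at h1
      rw [← h1] at hw'
      exact absurd hw' hw
    · rw [Finsupp.notMem_support_iff.mp hw, Finsupp.notMem_support_iff.mp hw']

end abstractPlace

variable (F₀ : IntermediateField ℚ (LaurentSeries ℚ)) [S27.IsFF Qb (laurentBaseChange Qb F₀)]

theorem exists_finiteLevel_place (P : Place Qb (laurentBaseChange Qb F₀)) :
    ∃ L : IntermediateField ℚ Qb, FiniteDimensional ℚ L ∧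
      ∀ σ : GQ, (∀ y ∈ L, σ y = y) → arithmeticGalois F₀ σ • P = P := by
  obtain ⟨f₁, f₂, h₁, h₂, h⟩ := exists_pair_cutting' P
  obtain ⟨L₁, hL₁, hf₁⟩ := GAL.exists_finiteLevel_function F₀ f₁
  obtain ⟨L₂, hL₂, hf₂⟩ := GAL.exists_finiteLevel_function F₀ f₂
  refine ⟨L₁ ⊔ L₂, IntermediateField.finiteDimensional_sup L₁ L₂, fun σ hσ => h _ ?_ ?_⟩
  · have e := SemilinearAut.ord_smul (arithmeticGalois F₀ σ) P f₁
    rwa [hf₁ σ fun y hy => hσ y ((le_sup_left : L₁ ≤ L₁ ⊔ L₂) hy), h₁] at e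
  · have e := SemilinearAut.ord_smul (arithmeticGalois F₀ σ) P f₂
    rwa [hf₂ σ fun y hy => hσ y ((le_sup_right : L₂ ≤ L₁ ⊔ L₂) hy), h₂] at e

theorem exists_finiteLevel_finset (S : Finset (Place Qb (laurentBaseChange Qb F₀))) :
    ∃ L : IntermediateField ℚ Qb, FiniteDimensional ℚ L ∧
      ∀ σ : GQ, (∀ y ∈ L, σ y = y) → ∀ P ∈ S, arithmeticGalois F₀ σ • P = P := by
  classical
  induction S using Finset.induction_on with
  | empty => exact ⟨⊥, inferInstance, fun _ _ P hP => absurd hP (Finset.notMem_empty P)⟩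
  | insert P S _ ih =>
    obtain ⟨L₁, hL₁, h₁⟩ := ih
    obtain ⟨L₂, hL₂, h₂⟩ := exists_finiteLevel_place F₀ P
    refine ⟨L₁ ⊔ L₂, IntermediateField.finiteDimensional_sup L₁ L₂, fun σ hσ Q hQ => ?_⟩
    rcases Finset.mem_insert.mp hQ with rfl | hQ
    · exact h₂ σ fun y hy => hσ y ((le_sup_right : L₂ ≤ L₁ ⊔ L₂) hy)
    · exact h₁ σ (fun y hy => hσ y ((le_sup_left : L₁ ≤ L₁ ⊔ L₂) hy)) Q hQ

/-- every point of `Pic⁰` is fixed by an open subgroup of `G_ℚ`. -/
theorem exists_finiteLevel_pic0 (x : Pic0 Qb (laurentBaseChange Qb F₀)) :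
    ∃ L : IntermediateField ℚ Qb, FiniteDimensional ℚ L ∧
      ∀ σ : GQ, (∀ y ∈ L, σ y = y) → σ • x = x := by
  obtain ⟨D, rfl⟩ := Pic0.mk_surjective x
  obtain ⟨L, hL, h⟩ := exists_finiteLevel_finset F₀ (D : Divisor Qb (laurentBaseChange Qb F₀)).support
  refine ⟨L, hL, fun σ hσ => ?_⟩
  rw [galois_smul_pic0_def, SemilinearAut.pic0_smul_mk]
  congr 1
  apply Subtype.ext
  rw [SemilinearAut.coe_degZeroSMulHom]
  exact smul_divisor_eq_of_fixes _ _ (h σ hσ)

end Fermat.Agent.S17.WMW
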