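import Fermat.Agent.RED.S37.Main
import Fermat.Agent.S18

/-!
# S17 / WMW : [W-UNR]  inertia outside `2N` acts trivially on halves

Hecke-free extraction from the assembly of S37 (`RED/S37/Main.lean`): the reduction map at the
auxiliary level `N * aux ℓ` composed with `B^*` is invariant under inertia (`reductionModL_smul`,
`Bstar_smul`) and injective on torsion prime to `ℓ` (S18 + `Bstar_eq_zero_of_torsion`).
-/

set_option autoImplicit false

open ModularCurve AlgebraicCurve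

namespace Fermat.Agent.S17.WMW

open Fermat.Agent.RED in
/-- general form: `m` prime to `ℓ`. -/
theorem smul_eq_of_mem_inertia_of_nsmul (N : ℕ) [NeZero N] {ℓ : ℕ} (hℓ : ℓ.Prime) (hℓN : ¬ ℓ ∣ N)
    (A : ValuationSubring (AlgebraicClosure ℚ)) (hA : A.LiesOverPrime ℓ)
    {σ : AlgebraicClosure ℚ ≃ₐ[ℚ] AlgebraicClosure ℚ} (hσ : σ ∈ A.inertiaSubgroupIn ℚ)
    {m : ℕ} (hm0 : m ≠ 0) (hm : ¬ ℓ ∣ m) (y : JZero N) (hy : m • (σ • y - y) = 0) :
    σ • y = y := by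
  haveI : Fact ℓ.Prime := ⟨hℓ⟩
  have hℓN' : ¬ ℓ ∣ N * aux ℓ := not_dvd_mul_aux hℓ hℓN
  have hB : HeckeInputsAlong Kb N (aux ℓ) := heckeInputsAlong' N (aux ℓ)
  have h : ReductionInputsModL A (N * aux ℓ) := reductionInputsModL_aux N hℓN A hA
  obtain ⟨hσ', hrefl⟩ := resAut_eq_refl_of_mem_inertia hσ
  have h0 : reductionModL A (N * aux ℓ) (Bstar N (aux ℓ) hB (σ • y - y)) = 0 := by
    rw [map_sub, map_sub, Bstar_smul, reductionModL_smul (N * aux ℓ) hℓN' A hA h σ hσ', hrefl,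
      coeffAut_refl, one_smul, sub_self]
  have h1 : Bstar N (aux ℓ) hB (σ • y - y) = 0 := by
    refine Fermat.Agent.S18.result (N * aux ℓ) hℓN' A hA h m hm _ ?_ h0
    rw [← map_nsmul, hy, map_zero]
  have h2 := Bstar_eq_zero_of_torsion N (aux ℓ) (aux_eq ℓ) hB (σ • y - y) m hm0 hy h1
  exact sub_eq_zero.mp h2

/-- **[W-UNR]** exact shape of `WMW/Geom.lean`. -/
theorem smul_eq_of_mem_inertia' (N : ℕ) [NeZero N] {ℓ : ℕ} (hℓ : ℓ.Prime) (hℓN : ¬ ℓ ∣ N * 2)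
    (A : ValuationSubring (AlgebraicClosure ℚ)) (hA : A.LiesOverPrime ℓ)
    {σ : AlgebraicClosure ℚ ≃ₐ[ℚ] AlgebraicClosure ℚ} (hσ : σ ∈ A.inertiaSubgroupIn ℚ)
    (y : JZero N) (hy : 2 • (σ • y - y) = 0) : σ • y = y :=
  smul_eq_of_mem_inertia_of_nsmul N hℓ (fun h => hℓN (h.mul_right 2)) A hA hσ two_ne_zero
    (fun h => hℓN (h.mul_left N)) y hy

end Fermat.Agent.S17.WMW
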