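import Fermat.Agent.S19.Div
import Fermat.Agent.RR.Modular
import Fermat.Prelude.Def_FLTPrelim_Ramification
import Fermat.Agent.S17.WMW.Cont
import Fermat.Agent.S17.WMW.Unr

/-!
# S17 / WMW : the geometric inputs of the weak Mordell-Weil theorem for `J₀(N)`
-/

set_option autoImplicit false

open ModularCurve AlgebraicCurve

namespace Fermat.Agent.S17.WMW

/-- `ℚ̄`. -/
local notation "Qb" => AlgebraicClosure ℚ
/-- the absolute Galois group of `ℚ`. -/
local notation "GQ" => (AlgebraicClosure ℚ ≃ₐ[ℚ] AlgebraicClosure ℚ)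

/-- `ℚ̄(X₀(N))` is a function field in the sense of S27. -/
instance isFF_bar (N : ℕ) [NeZero N] : S27.IsFF Qb (modularFunctionFieldBar N) :=
  ⟨⟨S24.jF N, S24.isFiniteParam_jF_of N (S24.CPAlt.charpolyCoeff N)⟩⟩

/-- **[W-DIV]** (from `S19.pic0_divisible`). -/
theorem exists_two_nsmul_eq (N : ℕ) [NeZero N] (x : JZero N) : ∃ y : JZero N, 2 • y = x :=
  S19.pic0_divisible Qb (modularFunctionFieldBar N)
    ⟨(IsAlgClosed.lift (R := ℚ) (S := Qb) (M := ℂ)).toRingHom⟩ 2 (by norm_num) x

/-- **[W-TOR]** (from S27). -/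
theorem finite_two_torsion (N : ℕ) [NeZero N] : {t : JZero N | 2 • t = 0}.Finite := by
  have h1 : Nat.card (Pic0.torsion Qb (modularFunctionFieldBar N) 2) =
      2 ^ (2 * genusFF Qb (modularFunctionFieldBar N)) :=
    S27.card_torsion_small_proof Qb (modularFunctionFieldBar N)
      ⟨(IsAlgClosed.lift (R := ℚ) (S := Qb) (M := ℂ)).toRingHom⟩ 2 (by norm_num)
  have hfin : Finite (Pic0.torsion Qb (modularFunctionFieldBar N) 2) := by
    apply Nat.finite_of_card_ne_zero
    rw [h1]
    positivity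
  have : {t : JZero N | 2 • t = 0} =
      (Pic0.torsion Qb (modularFunctionFieldBar N) 2 : Set (JZero N)) := by
    ext x
    simp only [Set.mem_ofPred_eq, SetLike.mem_coe, Pic0.mem_torsion]
    norm_cast
  rw [this]
  exact Set.toFinite _

/-- **[W-CONT]** every point of `J₀(N)(ℚ̄)` is defined over a number field.

Proof.  It is enough to do it for places `P` (a class is represented by a divisor).  Let `j` be the
`j`-function (rational `q`-expansion, so `σ j = j`).  The fibre `T` of `j` through `P` (or the set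
of poles of `j`) is finite.  Choose `f` in `ℚ̄(X₀(N))` regular on `T` with distinct values on `T`;
write `f = ∑ c_i f_i / ∑ d_i f_i` with `f_i` rational: `f` is fixed by `Gal(ℚ̄ / K)`, `K ∋ c_i, d_i`.
For `σ` fixing `K`, `j(P)` and the values `f(T)` we get `σ P ∈ T` and `f(σ P) = σ(f(P)) = f(P)`. -/
theorem exists_fixingSubgroup_le (N : ℕ) [NeZero N] (y : JZero N) :
    ∃ K : IntermediateField ℚ Qb, FiniteDimensional ℚ K ∧ ∀ σ ∈ K.fixingSubgroup, σ • y = y := by
  obtain ⟨L, hL, h⟩ := exists_finiteLevel_pic0 (modularFunctionFieldFull N) y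
  exact ⟨L, hL, fun σ hσ => h σ fun z hz =>
    (IntermediateField.mem_fixingSubgroup_iff _ _).mp hσ z hz⟩

/-- **[W-UNR]** (from the closure of S37 : `RED.specializationExists`, fields `inertia_comm` and
`injective_torsion` with `p = 2`; use the Hecke-free statements inside RED/S37). -/
theorem smul_eq_of_mem_inertia (N : ℕ) [NeZero N] {ℓ : ℕ} (hℓ : ℓ.Prime) (hℓN : ¬ ℓ ∣ N * 2)
    (A : ValuationSubring Qb) (hA : A.LiesOverPrime ℓ) {σ : GQ} (hσ : σ ∈ A.inertiaSubgroupIn ℚ)
    (y : JZero N) (hy : 2 • (σ • y - y) = 0) : σ • y = y :=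
  smul_eq_of_mem_inertia' N hℓ hℓN A hA hσ y hy

end Fermat.Agent.S17.WMW
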