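import Mathlib
import Fermat.Prelude.Def_FLTPrelim_Ramification
import Fermat.Agent.CFT.Global.H1.Kummer

/-!
# S17 / WMW : **[W-KUM]** finitely many quadratic characters unramified outside `S`
-/

set_option autoImplicit false

namespace Fermat.Agent.S17.WMW

/-- `ℚ̄`. -/
local notation "Qb" => AlgebraicClosure ℚ
/-- the absolute Galois group of `ℚ`. -/
local notation "GQ" => (AlgebraicClosure ℚ ≃ₐ[ℚ] AlgebraicClosure ℚ)

open Fermat.Agent.CFT Fermat.Agent.CFT.Global Fermat.Agent.Bridge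

namespace Kum

/-- the prime `2`. -/
def twoP : Nat.Primes := ⟨2, Nat.prime_two⟩

/-- the primes of `S`, together with `2`. -/
noncomputable def primesOf (S : Finset ℕ) : Finset Nat.Primes :=
  insert twoP (S.preimage (fun q : Nat.Primes => (q : ℕ)) Nat.Primes.coe_nat_injective.injOn)

lemma not_mem_of_not_mem_primesOf {S : Finset ℕ} {q : Nat.Primes} (hq : q ∉ primesOf S) :
    (q : ℕ) ∉ S ∧ (q : ℕ) ≠ 2 := by
  unfold primesOf at hq
  rw [Finset.mem_insert, not_or] at hq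
  exact ⟨fun h => hq.2 (Finset.mem_preimage.2 h), fun h => hq.1 (Subtype.ext h)⟩

lemma imageField_val (K₁ : IntermediateField ℚ Qb) :
    imageField (algebraMap K₁ Qb) = K₁ := by
  ext y
  rw [mem_imageField]
  constructor
  · rintro ⟨x, rfl⟩
    exact x.2
  · intro hy
    exact ⟨⟨y, hy⟩, rfl⟩

/-- the space of level-constant homomorphisms `Gal(ℚ̄/K₁) → ℤ/2` is finite. -/
theorem finite_Z1 (S : Finset Nat.Primes) (h2 : ∀ q : Nat.Primes, q ∉ S → (q : ℕ) ≠ 2)
    (K₁ : IntermediateField ℚ Qb) (hur : K₁.IsUnramifiedOutside S) :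
    Finite ↥(Z1 ((levS S).comap K₁.fixingSubgroup.subtype)
      (1 : Representation (ZMod 2) ↥K₁.fixingSubgroup (ZMod 2))) := by
  have := hur.1
  have : NumberField K₁ := ⟨⟩
  have hur' : (imageField (algebraMap K₁ Qb)).IsUnramifiedOutside S := by
    rw [imageField_val]; exact hur
  have hζ : IsPrimitiveRoot (-1 : K₁) 2 := IsPrimitiveRoot.neg_one 0 (by norm_num)
  obtain ⟨e⟩ := H1_equiv_BS (p := 2) hur'
    (fun q hq => (Nat.coprime_primes q.2 Nat.prime_two).2 (h2 q hq)) hζ K₁.fixingSubgroup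
    (by rw [fixer_eq, imageField_val])
  obtain ⟨h1, -, -⟩ := finrank_BS (p := 2) hζ (aboveS K₁ S)
  have : Finite ↥(BS 2 (aboveS K₁ S)) := Module.finite_of_finite (ZMod 2)
  have hH : Finite (H1 ((levS S).comap K₁.fixingSubgroup.subtype)
      (1 : Representation (ZMod 2) ↥K₁.fixingSubgroup (ZMod 2))) := Finite.of_equiv _ e.symm.toEquiv
  have hbot : (B1 (1 : Representation (ZMod 2) ↥K₁.fixingSubgroup (ZMod 2))).submoduleOf
      (Z1 ((levS S).comap K₁.fixingSubgroup.subtype) 1) = ⊥ := by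
    rw [B1_one_eq_bot]
    exact Submodule.comap_bot _ |>.trans (Submodule.ker_subtype _)
  exact Finite.of_equiv _ (Submodule.quotEquivOfEqBot _ hbot).toEquiv

/-- the kernel of an additive function on a subgroup `W ≤ GQ`, as a subgroup of `GQ`. -/
def kerSub {W : Subgroup GQ} {M : Type*} [AddCommGroup M] (χ : W → M)
    (hadd : ∀ σ τ, χ (σ * τ) = χ σ + χ τ) : Subgroup GQ where
  carrier := {σ | ∃ h : σ ∈ W, χ ⟨σ, h⟩ = 0}
  one_mem' := by
    refine ⟨W.one_mem, ?_⟩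
    have h := hadd 1 1
    rw [mul_one] at h
    have h' : χ 1 = 0 := by simpa using h
    exact h'
  mul_mem' := by
    rintro a b ⟨ha, ha'⟩ ⟨hb, hb'⟩
    refine ⟨W.mul_mem ha hb, ?_⟩
    have h := hadd ⟨a, ha⟩ ⟨b, hb⟩
    rw [ha', hb', add_zero] at h
    exact h
  inv_mem' := by
    rintro a ⟨ha, ha'⟩
    refine ⟨W.inv_mem ha, ?_⟩
    have h1 : χ 1 = 0 := by
      have h := hadd 1 1
      rw [mul_one] at h
      simpa using h
    have h := hadd ⟨a, ha⟩ ⟨a⁻¹, W.inv_mem ha⟩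
    have h2 : (⟨a, ha⟩ * ⟨a⁻¹, W.inv_mem ha⟩ : W) = 1 := Subtype.ext (mul_inv_cancel a)
    rw [h2, h1, ha', zero_add] at h
    exact h.symm

/-- a continuous quadratic character unramified outside `S` is a level-constant cocycle. -/
theorem mem_Z1 (S : Finset Nat.Primes) (K₁ : IntermediateField ℚ Qb) [FiniteDimensional ℚ K₁]
    (χ : K₁.fixingSubgroup → ZMod 2) (hadd : ∀ σ τ, χ (σ * τ) = χ σ + χ τ)
    (hcont : ∃ K₂ : IntermediateField ℚ Qb, FiniteDimensional ℚ K₂ ∧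
        ∀ σ : K₁.fixingSubgroup, (σ : GQ) ∈ K₂.fixingSubgroup → χ σ = 0)
    (hunr : ∀ q : Nat.Primes, q ∉ S → ∀ A : ValuationSubring Qb, A.LiesOverPrime (q : ℕ) →
      ∀ σ : GQ, σ ∈ A.inertiaSubgroupIn ℚ → ∃ h : σ ∈ K₁.fixingSubgroup, χ ⟨σ, h⟩ = 0) :
    χ ∈ Z1 ((levS S).comap K₁.fixingSubgroup.subtype)
      (1 : Representation (ZMod 2) ↥K₁.fixingSubgroup (ZMod 2)) := by
  have := isGalois_Qb
  obtain ⟨K₂, hK₂, hχ⟩ := hcont
  have hfd : FiniteDimensional ℚ ↥(K₁ ⊔ K₂) := IntermediateField.finiteDimensional_sup K₁ K₂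
  have hle : (K₁ ⊔ K₂).fixingSubgroup ≤ kerSub χ hadd := by
    intro σ hσ
    rw [IntermediateField.fixingSubgroup_sup] at hσ
    exact ⟨hσ.1, hχ ⟨σ, hσ.1⟩ hσ.2⟩
  have hopen : IsOpen ((kerSub χ hadd : Subgroup GQ) : Set GQ) :=
    Subgroup.isOpen_mono hle (IntermediateField.fixingSubgroup_isOpen _)
  have hclosed : IsClosed ((kerSub χ hadd : Subgroup GQ) : Set GQ) :=
    Subgroup.isClosed_of_isOpen _ hopen
  have hfix : (IntermediateField.fixedField (kerSub χ hadd)).fixingSubgroup = kerSub χ hadd :=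
    InfiniteGalois.fixingSubgroup_fixedField ⟨kerSub χ hadd, hclosed⟩
  have hF₀le : IntermediateField.fixedField (kerSub χ hadd) ≤ K₁ ⊔ K₂ := by
    rw [← InfiniteGalois.fixedField_fixingSubgroup (K₁ ⊔ K₂)]
    exact IntermediateField.fixedField_antitone hle
  have hF₀ : (IntermediateField.fixedField (kerSub χ hadd)).IsUnramifiedOutside S := by
    refine ⟨FiniteDimensional.of_injective (IntermediateField.inclusion hF₀le).toLinearMap
      (IntermediateField.inclusion_injective hF₀le), fun q hq A hA σ hσ => ?_⟩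
    rw [hfix]
    exact hunr q hq A hA σ hσ
  obtain ⟨U, hU, hUle⟩ := exists_levS_le hF₀
  refine ⟨?_, ⟨_, ⟨U, hU, rfl⟩, fun g s hs => ?_⟩⟩
  · apply LinearMap.mem_ker.2
    funext g
    rw [d12_apply, hadd, MonoidHom.one_apply, Module.End.one_apply, Pi.zero_apply]
    ring
  · have h1 : (s : GQ) ∈ kerSub χ hadd := by
      rw [← hfix]; exact hUle hs
    obtain ⟨h, h2⟩ := h1
    rw [hadd, show χ s = 0 from h2, add_zero]

end Kum

/-- **[W-KUM]**.  `H = Gal(ℚ̄ / K₁)` for a number field `K₁` which is unramified outside `S`; `M` a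
finite abelian group killed by `2`.  There are only finitely many homomorphisms `H → M` which are
continuous and unramified outside `S`.

Source: CFT/Global/H1/Kummer.lean (`H1_equiv_BS`, `finrank_BS` with `p = 2`, `ζ = -1`), or directly:
`ker χ` (for `M = ℤ/2`) is `Gal(ℚ̄ / K₁(√a))`, `ord_v a` is even for `v` outside `S ∪ {2}`, and
`{a ∈ K₁ˣ / K₁ˣ² : ord_v a even outside S}` is finite (class group finite, units f.g.). -/
theorem finite_unramified_homs (S : Finset ℕ) (K₁ : IntermediateField ℚ Qb)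
    [FiniteDimensional ℚ K₁]
    (hI : ∀ ℓ : ℕ, ℓ.Prime → ℓ ∉ S → ∀ A : ValuationSubring Qb, A.LiesOverPrime ℓ →
      A.inertiaSubgroupIn ℚ ≤ K₁.fixingSubgroup)
    (M : Type*) [AddCommGroup M] [Finite M] (hM : ∀ m : M, 2 • m = 0) :
    {f : K₁.fixingSubgroup → M | (∀ σ τ, f (σ * τ) = f σ + f τ) ∧
      (∃ K₂ : IntermediateField ℚ Qb, FiniteDimensional ℚ K₂ ∧
        ∀ σ : K₁.fixingSubgroup, (σ : GQ) ∈ K₂.fixingSubgroup → f σ = 0) ∧
      (∀ ℓ : ℕ, ℓ.Prime → ℓ ∉ S → ∀ A : ValuationSubring Qb, A.LiesOverPrime ℓ →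
        ∀ σ : K₁.fixingSubgroup, (σ : GQ) ∈ A.inertiaSubgroupIn ℚ → f σ = 0)}.Finite := by
  classical
  have hur : K₁.IsUnramifiedOutside (Kum.primesOf S) :=
    ⟨inferInstance, fun q hq A hA => hI q q.2 (Kum.not_mem_of_not_mem_primesOf hq).1 A hA⟩
  have hfin := Kum.finite_Z1 (Kum.primesOf S)
    (fun q hq => (Kum.not_mem_of_not_mem_primesOf hq).2) K₁ hur
  let _ : Module (ZMod 2) M := AddCommGroup.zmodModule hM
  have : Module.Finite (ZMod 2) M := Module.Finite.of_finite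
  let b := Module.finBasis (ZMod 2) M
  rw [← Set.finite_coe_iff]
  refine Finite.of_injective (β := Fin (Module.finrank (ZMod 2) M) →
      ↥(Z1 ((levS (Kum.primesOf S)).comap K₁.fixingSubgroup.subtype)
      (1 : Representation (ZMod 2) ↥K₁.fixingSubgroup (ZMod 2))))
    (fun f i => ⟨fun σ => b.repr (f.1 σ) i, ?_⟩) ?_
  · obtain ⟨f, h1, ⟨K₂, hK₂, h2⟩, h3⟩ := f
    refine Kum.mem_Z1 _ K₁ _ (fun σ τ => ?_) ⟨K₂, hK₂, fun σ hσ => ?_⟩
      (fun q hq A hA σ hσ => ?_)
    · simp only [h1, map_add, Finsupp.add_apply]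
    · simp only [h2 σ hσ, map_zero, Finsupp.zero_apply]
    · have hq' := (Kum.not_mem_of_not_mem_primesOf hq).1
      refine ⟨hI q q.2 hq' A hA hσ, ?_⟩
      simp only [h3 q q.2 hq' A hA ⟨σ, hI q q.2 hq' A hA hσ⟩ hσ, map_zero, Finsupp.zero_apply]
  · intro f g hfg
    apply Subtype.ext
    funext σ
    apply b.repr.injective
    ext i
    have h1 := congrFun hfg i
    have h2 := congrArg Subtype.val h1
    exact congrFun h2 σ

end Fermat.Agent.S17.WMW
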