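import Fermat.Agent.S17.WMW.Coc
import Fermat.Agent.S17.WMW.Kum
import Fermat.Agent.S17.WMW.Geom

/-!
# S17 / WMW : the weak Mordell-Weil theorem for `J₀(N)`
-/

set_option autoImplicit false

open ModularCurve AlgebraicCurve

namespace Fermat.Agent.S17.WMW

/-- `ℚ̄`. -/
local notation "Qb" => AlgebraicClosure ℚ
/-- the absolute Galois group of `ℚ`. -/
local notation "GQ" => (AlgebraicClosure ℚ ≃ₐ[ℚ] AlgebraicClosure ℚ)

theorem isGalois_Qbar_wmw : IsGalois ℚ (AlgebraicClosure ℚ) := by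
  have h1 : Algebra.IsAlgebraic ℚ (AlgebraicClosure ℚ) := AlgebraicClosure.isAlgebraic ℚ
  have h2 : IsAlgClosure ℚ (AlgebraicClosure ℚ) := ⟨inferInstance, inferInstance⟩
  have h3 : Normal ℚ (AlgebraicClosure ℚ) := IsAlgClosure.normal ℚ (AlgebraicClosure ℚ)
  exact {}

attribute [local instance] isGalois_Qbar_wmw

/-- the pointwise stabiliser of a set of points. -/
def ptStab {J : Type*} [AddCommGroup J] [DistribMulAction GQ J] (T : Set J) : Subgroup GQ where
  carrier := {σ | ∀ t ∈ T, σ • t = t}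
  one_mem' := fun t _ => one_smul _ t
  mul_mem' := fun {a b} ha hb t ht => by rw [mul_smul, hb t ht, ha t ht]
  inv_mem' := fun {a} ha t ht => by rw [inv_smul_eq_iff, ha t ht]

/-- Abstract form: a finite set of points each of which is defined over a number field has
pointwise stabiliser `Gal(ℚ̄ / K₁)` for a number field `K₁`. -/
theorem exists_field_ptStab {J : Type*} [AddCommGroup J] [DistribMulAction GQ J] (T : Set J)
    (hT : T.Finite)
    (hc : ∀ y ∈ T, ∃ K : IntermediateField ℚ Qb, FiniteDimensional ℚ K ∧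
      ∀ σ ∈ K.fixingSubgroup, σ • y = y) :
    ∃ K₁ : IntermediateField ℚ Qb, FiniteDimensional ℚ K₁ ∧ K₁.fixingSubgroup = ptStab T := by
  classical
  -- a number field `K'` with `Gal(ℚ̄ / K') ≤ ptStab T`
  have h1 : ∃ K' : IntermediateField ℚ Qb, FiniteDimensional ℚ K' ∧
      K'.fixingSubgroup ≤ ptStab T := by
    induction T, hT using Set.Finite.induction_on with
    | empty => exact ⟨⊥, inferInstance, fun σ _ t ht => absurd ht (Set.notMem_empty t)⟩
    | @insert a s ha hs ih =>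
      obtain ⟨K', hK', hle⟩ := ih (fun y hy => hc y (Set.mem_insert_of_mem _ hy))
      obtain ⟨K, hK, hfix⟩ := hc a (Set.mem_insert _ _)
      refine ⟨K ⊔ K', IntermediateField.finiteDimensional_sup K K', fun σ hσ t ht => ?_⟩
      rcases Set.mem_insert_iff.1 ht with rfl | ht
      · exact hfix σ (IntermediateField.fixingSubgroup_le le_sup_left hσ)
      · exact hle (IntermediateField.fixingSubgroup_le le_sup_right hσ) t ht
  obtain ⟨K', hK', hle⟩ := h1
  have hopen : IsOpen ((ptStab T : Subgroup GQ) : Set GQ) :=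
    Subgroup.isOpen_mono hle (IntermediateField.fixingSubgroup_isOpen K')
  have hclosed : IsClosed ((ptStab T : Subgroup GQ) : Set GQ) :=
    Subgroup.isClosed_of_isOpen _ hopen
  refine ⟨IntermediateField.fixedField (ptStab T), ?_,
    InfiniteGalois.fixingSubgroup_fixedField ⟨ptStab T, hclosed⟩⟩
  have hle' : IntermediateField.fixedField (ptStab T) ≤ K' := by
    rw [← InfiniteGalois.fixedField_fixingSubgroup K']
    exact IntermediateField.fixedField_antitone hle
  exact Module.Finite.of_injective (IntermediateField.inclusion hle').toLinearMap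
    (IntermediateField.inclusion hle').injective

/-- **weak Mordell-Weil**. -/
theorem weakMW (N : ℕ) [NeZero N] :
    (nsmulAddMonoidHom (α := FixedPoints.addSubgroup GQ (JZero N)) 2).range.FiniteIndex := by
  classical
  obtain ⟨K₁, hK₁, hfix⟩ := exists_field_ptStab {t : JZero N | 2 • t = 0} (finite_two_torsion N)
    (fun y _ => exists_fixingSubgroup_le N y)
  have hmem : ∀ σ ∈ K₁.fixingSubgroup, ∀ t : JZero N, 2 • t = 0 → σ • t = t := by
    intro σ hσ t ht
    rw [hfix] at hσ
    exact hσ t ht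
  have hcomm : ∀ (σ : GQ) (x : JZero N), σ • (2 • x) = 2 • (σ • x) := fun σ x => by
    rw [two_nsmul, two_nsmul, smul_add]
  have : K₁.fixingSubgroup.FiniteIndex := by
    refine ⟨?_⟩
    rw [← IntermediateField.finrank_eq_fixingSubgroup_index]
    exact Module.finrank_pos.ne'
  -- the two-torsion as a group
  let M : AddSubgroup (JZero N) := (nsmulAddMonoidHom (α := JZero N) 2).ker
  have hMmem : ∀ t : JZero N, t ∈ M ↔ 2 • t = 0 := fun t => by
    simp [M, AddMonoidHom.mem_ker]
  have : Finite M := by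
    have : (M : Set (JZero N)) = {t : JZero N | 2 • t = 0} := by
      ext t; exact hMmem t
    exact (this ▸ finite_two_torsion N : (M : Set (JZero N)).Finite).to_subtype
  have hM2 : ∀ m : M, 2 • m = 0 := fun m => Subtype.ext ((hMmem m.1).1 m.2)
  let S : Finset ℕ := (N * 2).primeFactors
  have hS : ∀ ℓ : ℕ, ℓ.Prime → ℓ ∉ S → ¬ ℓ ∣ N * 2 := by
    intro ℓ hℓ hnot hdvd
    exact hnot (Nat.mem_primeFactors.2 ⟨hℓ, hdvd, mul_ne_zero (NeZero.ne N) two_ne_zero⟩)
  have hI : ∀ ℓ : ℕ, ℓ.Prime → ℓ ∉ S → ∀ A : ValuationSubring Qb, A.LiesOverPrime ℓ →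
      A.inertiaSubgroupIn ℚ ≤ K₁.fixingSubgroup := by
    intro ℓ hℓ hnot A hA σ hσ
    rw [hfix]
    intro t ht
    refine smul_eq_of_mem_inertia N hℓ (hS ℓ hℓ hnot) A hA hσ t ?_
    have ht' : 2 • t = 0 := ht
    rw [nsmul_sub, ← hcomm, ht', sub_zero]
    exact smul_zero (A := JZero N) σ
  have hfinM := finite_unramified_homs S K₁ hI M hM2
  refine finiteIndex_range_two_nsmul (exists_two_nsmul_eq N) (finite_two_torsion N)
    K₁.fixingSubgroup ?_
  refine (hfinM.image (fun g : K₁.fixingSubgroup → M => fun σ => (g σ : JZero N))).subset ?_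
  rintro f ⟨y, hy, rfl⟩
  have hval : ∀ σ : GQ, σ • y - y ∈ M := by
    intro σ
    rw [hMmem, nsmul_sub, ← hcomm, hy σ, sub_self]
  refine ⟨fun σ => ⟨(σ : GQ) • y - y, hval σ⟩, ⟨?_, ?_, ?_⟩, rfl⟩
  · intro σ τ
    apply Subtype.ext
    have h1 : (σ : GQ) • ((τ : GQ) • y - y) = (τ : GQ) • y - y :=
      hmem σ σ.2 _ ((hMmem _).1 (hval τ))
    rw [smul_sub] at h1
    show ((σ * τ : K₁.fixingSubgroup) : GQ) • y - y = ((σ : GQ) • y - y) + ((τ : GQ) • y - y)
    rw [Subgroup.coe_mul, mul_smul, ← h1]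
    abel
  · obtain ⟨K₂, hK₂, h2⟩ := exists_fixingSubgroup_le N y
    refine ⟨K₂, hK₂, fun σ hσ => Subtype.ext ?_⟩
    show (σ : GQ) • y - y = 0
    rw [h2 _ hσ, sub_self]
  · intro ℓ hℓ hnot A hA σ hσ
    apply Subtype.ext
    show (σ : GQ) • y - y = 0
    rw [smul_eq_of_mem_inertia N hℓ (hS ℓ hℓ hnot) A hA hσ y ((hMmem _).1 (hval σ)), sub_self]

end Fermat.Agent.S17.WMW
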