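import Mathlib

/-!
# S17 / WMW : **[W-COC]** the group theoretic part of the weak Mordell-Weil theorem
-/

set_option autoImplicit false

namespace Fermat.Agent.S17.WMW

/-- the coboundary-type functions `σ ↦ σ y - y`, `2 y ∈ J^G`, form a finite set -/
theorem finite_cocycles {G J : Type*} [Group G] [AddCommGroup J] [DistribMulAction G J]
    (hT : {t : J | 2 • t = 0}.Finite)
    (H : Subgroup G) [H.FiniteIndex]
    (hfin : {f : H → J | ∃ y : J, (∀ σ : G, σ • (2 • y) = 2 • y) ∧
      f = fun σ : H => (σ : G) • y - y}.Finite) :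
    {f : G → J | ∃ y : J, (∀ σ : G, σ • (2 • y) = 2 • y) ∧ f = fun σ : G => σ • y - y}.Finite := by
  let Ψ : (G → J) → (H → J) × (G ⧸ H → J) := fun f => (fun h => f h, fun q => f q.out)
  have hB : (Set.pi Set.univ (fun _ : G ⧸ H => {t : J | 2 • t = 0})).Finite :=
    Set.Finite.pi fun _ => hT
  refine Set.Finite.of_injOn (f := Ψ) (t := _ ×ˢ _) ?_ ?_ (hfin.prod hB)
  · rintro f ⟨y, hy, rfl⟩
    refine ⟨⟨y, hy, rfl⟩, fun q _ => ?_⟩
    show 2 • (q.out • y - y) = 0
    rw [smul_sub, smul_comm, hy, sub_self]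
  · rintro f ⟨y, hy, rfl⟩ f' ⟨y', hy', rfl⟩ hff'
    have h1 : ∀ h : H, (h : G) • y - y = (h : G) • y' - y' := fun h =>
      congrFun (congrArg Prod.fst hff') h
    have h2 : ∀ q : G ⧸ H, q.out • y - y = q.out • y' - y' := fun q =>
      congrFun (congrArg Prod.snd hff') q
    funext σ
    set ρ : G := (σ : G ⧸ H).out with hρ
    have hmem : ρ⁻¹ * σ ∈ H := by
      rw [← QuotientGroup.eq, hρ, QuotientGroup.out_eq']
    have e : ∀ z : J, σ • z - z = ρ • ((ρ⁻¹ * σ) • z - z) + (ρ • z - z) := by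
      intro z
      rw [smul_sub, ← mul_smul, mul_inv_cancel_left]
      abel
    show σ • y - y = σ • y' - y'
    rw [e y, e y', h1 ⟨_, hmem⟩, h2]

/-- **[W-COC]**.  `G` acts on the `2`-divisible group `J` with finite `2`-torsion, `H ≤ G` of finite
index acts trivially on `J[2]`, and only finitely many functions `σ ↦ σ y - y` on `H` occur for
`y` with `2 y ∈ J^G`.  Then `J^G / 2 J^G` is finite.

Proof.  For `x ∈ J^G` choose `y(x)` with `2 y = x`; `c(x) : G → J[2]`, `σ ↦ σ y - y`.  If
`c(x) = c(x')` then `y - y' ∈ J^G`, so `x - x' ∈ 2 J^G`.  So it is enough to see that `c` takes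
finitely many values.  `c(x)` is a cocycle, so it is determined by its restriction to `H`
(finitely many possibilities by `hfin`) and its values (in the finite set `J[2]`) on a finite
system of representatives of `G / H` : `c(σ τ) = c(σ) + σ c(τ)`. -/
theorem finiteIndex_range_two_nsmul {G J : Type*} [Group G] [AddCommGroup J] [DistribMulAction G J]
    (hdiv : ∀ x : J, ∃ y : J, 2 • y = x) (hT : {t : J | 2 • t = 0}.Finite)
    (H : Subgroup G) [H.FiniteIndex]
    (hfin : {f : H → J | ∃ y : J, (∀ σ : G, σ • (2 • y) = 2 • y) ∧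
      f = fun σ : H => (σ : G) • y - y}.Finite) :
    (nsmulAddMonoidHom (α := FixedPoints.addSubgroup G J) 2).range.FiniteIndex := by
  have hS := finite_cocycles hT H hfin
  set S := {f : G → J | ∃ y : J, (∀ σ : G, σ • (2 • y) = 2 • y) ∧ f = fun σ : G => σ • y - y}
    with hSdef
  have : Finite S := hS
  choose Y hY using hdiv
  -- for every element of `S` a point of `J^G`
  have hx : ∀ f : S, ∃ x : FixedPoints.addSubgroup G J, ∃ y : J, 2 • y = (x : J) ∧
      (f : G → J) = fun σ : G => σ • y - y := by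
    rintro ⟨f, y, hy, rfl⟩
    exact ⟨⟨2 • y, hy⟩, y, rfl, rfl⟩
  choose X YX hX1 hX2 using hx
  have hsurj : Function.Surjective (fun f : S =>
      (QuotientAddGroup.mk (X f) : FixedPoints.addSubgroup G J ⧸
        (nsmulAddMonoidHom (α := FixedPoints.addSubgroup G J) 2).range)) := by
    intro q
    obtain ⟨x, rfl⟩ := QuotientAddGroup.mk_surjective q
    have hxfix : ∀ σ : G, σ • (2 • Y (x : J)) = 2 • Y (x : J) := by
      intro σ
      rw [hY]
      exact x.2 σ
    let f : S := ⟨fun σ => σ • Y (x : J) - Y (x : J), Y (x : J), hxfix, rfl⟩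
    refine ⟨f, ?_⟩
    show (QuotientAddGroup.mk (X f) : FixedPoints.addSubgroup G J ⧸ _) = QuotientAddGroup.mk x
    rw [QuotientAddGroup.eq]
    have h1 : ∀ σ : G, σ • Y (x : J) - Y (x : J) = σ • YX f - YX f := fun σ =>
      congrFun (hX2 f) σ
    have hfix : ∀ σ : G, σ • (Y (x : J) - YX f) = Y (x : J) - YX f := by
      intro σ
      rw [smul_sub]
      have := h1 σ
      rw [sub_eq_sub_iff_add_eq_add] at this ⊢
      rw [this]
      abel
    refine ⟨⟨Y (x : J) - YX f, hfix⟩, ?_⟩
    apply Subtype.ext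
    show 2 • (Y (x : J) - YX f) = -(X f : J) + (x : J)
    rw [smul_sub, hY, hX1]
    abel
  have : Finite (FixedPoints.addSubgroup G J ⧸
      (nsmulAddMonoidHom (α := FixedPoints.addSubgroup G J) 2).range) :=
    Finite.of_surjective _ hsurj
  exact AddSubgroup.finiteIndex_of_finite_quotient

end Fermat.Agent.S17.WMW
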